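/-
Strict ordinarity at `p`: a Frobenius on the torsion killed by two degeneracy push-forwards, at
residue
characteristic dividing the order of the torsion.

On both components the reduction of a function attached to such a class satisfies
`g₀ c(g₁) = 1` and `g₁ c(g₀) = 1` up to constants and `n`-th powers, `c` the arithmetic Frobenius,
so `σ² x - x` lies in the kernel of reduction.
-/
import Fermat.Agent.NewformRep.GeometryAbstract
import Fermat.Agent.OrdinaryDatum.KernelDefs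

set_option autoImplicit false
set_option linter.style.haveILetI false

noncomputable section

open AlgebraicCurve Fermat.Agent.Bad Fermat.Agent.Bad.MultiReduction Fermat.Agent.Curve

namespace Fermat.Agent.Strict

universe uK uF uι uk uE uG

section Kernel

variable {K : Type uK} [Field K] {A : ValuationSubring K} {F : Type uF} [Field F] [Algebra K F]
  [IsFunctionFieldOne K F] {ι : Type uι} [Fintype ι] {k : Type uk} [Field k]
  {Fb : ι → Type uE} [∀ i, Field (Fb i)] [∀ i, Algebra k (Fb i)]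

/-- A class whose function reduces to an `n`-th power on every component is in the kernel of
reduction. -/
theorem mem_kernelGroup_of_forall_pow (R : MultiReduction A F k Fb) {n : ℕ}
    (D : Divisor.degZero (K := K) (F := F)) {f : F} (hf : f ≠ 0)
    (hD : ∀ v : Place K F, (n : ℤ) * (D : Divisor K F) v = v.ord f)
    (hpow : ∀ i, ∃ (h : f ∈ R.V i) (g : Fb i), g ≠ 0 ∧ R.φ i ⟨f, h⟩ = g ^ n) :
    Pic0.mk D ∈ OrdinaryDatum.kernelGroup R n := by
  choose hm g hg0 hg using hpow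
  obtain ⟨⟨w, hw⟩, hwr⟩ := R.red_surjective g
  have hwne : ∀ i, R.red ⟨w, hw⟩ i ≠ 0 := fun i => by rw [hwr]; exact hg0 i
  have hw0 : w ≠ 0 := by
    obtain ⟨i⟩ := R.nonempty
    exact R.red_ne_zero_of_ne (hwne i)
  have hwinv : w⁻¹ ∈ R.integers := R.inv_mem_integers hwne
  have hfmem : f ∈ R.integers := R.mem_integers.2 hm
  let Dw : Divisor.degZero (K := K) (F := F) :=
    ⟨divisorOf K w, Divisor.mem_degZero.2 (degree_divisorOf w)⟩
  have hDw : Pic0.mk Dw = 0 := by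
    rw [Pic0.mk, QuotientAddGroup.eq_zero_iff, AddSubgroup.mem_addSubgroupOf]
    exact ⟨w, hw0, fun v => divisorOf_apply w v⟩
  refine ⟨D - Dw, f * w⁻¹ ^ n, ?_, Divisor.mem_degZero.1 (D - Dw).2, fun v => ?_,
    mul_mem hfmem (pow_mem hwinv n), funext fun i => ?_⟩
  · show (QuotientAddGroup.mk (D - Dw) : Pic0 K F) = _
    rw [QuotientAddGroup.mk_sub, show (QuotientAddGroup.mk Dw : Pic0 K F) = 0 from hDw, sub_zero]
    rfl
  · rw [AddSubgroupClass.coe_sub, Finsupp.sub_apply, mul_sub, hD v]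
    show _ - (n : ℤ) * divisorOf K w v = _
    rw [divisorOf_apply, v.ord_mul hf (pow_ne_zero n (inv_ne_zero hw0)), ← zpow_natCast,
      v.ord_zpow, v.ord_inv]
    ring
  · have e : (⟨f * w⁻¹ ^ n, mul_mem hfmem (pow_mem hwinv n)⟩ : R.integers) =
        ⟨f, hfmem⟩ * ⟨w⁻¹, hwinv⟩ ^ n := rfl
    rw [e, map_mul, map_pow, Pi.mul_apply, Pi.pow_apply, R.red_inv hwne i, hwr, R.red_apply,
      hg i, ← mul_pow, mul_inv_cancel₀ (hg0 i), one_pow]
    rfl

end Kernel

section Frobenius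

variable {K : Type uK} [Field K] {A : ValuationSubring K} {F : Type uF} [Field F] [Algebra K F]
  [IsAlgClosed K] [IsFunctionFieldOne K F]
  {ι : Type uι} [Fintype ι] {k : Type uk} [Field k] [IsAlgClosed k]
  {E : Type uE} [Field E] [Algebra k E] [IsFunctionFieldOne k E]
  {F' : Type uG} [Field F'] [Algebra K F'] [IsFunctionFieldOne K F']
  {R : MultiReduction A F k (fun _ : ι => E)} {q : ℕ} [Fact q.Prime] [CharP k q]
  {D : NewformRep.FrobeniusData k E q} {α β : F' →ₐ[K] F}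
  {V' : ValuationSubring F'} {φ' : V' →+* E} {i j : ι}

omit [IsAlgClosed k] in
/-- A class killed by push-forward along `α`: `g i * c (g j)` is a constant times an `n`-th
power. -/
theorem exists_norm_eq_pow (hd : NewformRep.DegeneracyReduction R D α V' φ' i j)
    (hb : NewformRep.BaseReduction R V' φ') (hij : i ≠ j)
    (hα : α.toRingHom.IsIntegral) (hfin : FiniteAlong K α) (hN : NormFormulaAlong K α hfin)
    {n : ℕ} (Dv : Divisor.degZero (K := K) (F := F)) {f : F} (hf : f ≠ 0)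
    (hD : ∀ v : Place K F, (n : ℤ) * (Dv : Divisor K F) v = v.ord f)
    (hi : f ∈ R.V i) (hj : f ∈ R.V j) (hi' : R.φ i ⟨f, hi⟩ ≠ 0) (hj' : R.φ j ⟨f, hj⟩ ≠ 0)
    (hx : NewformRep.picPushAlong α hα hfin hN (Pic0.mk Dv) = 0) :
    ∃ (a : k) (h : E), a ≠ 0 ∧ h ≠ 0 ∧
      R.φ i ⟨f, hi⟩ * D.c (R.φ j ⟨f, hj⟩) = algebraMap k E a * h ^ n := by
  letI := algebraAlong α
  haveI := isScalarTower_along α
  haveI : Module.Finite F' F := hfin
  obtain ⟨h, hh0, hh⟩ := AddSubgroup.mem_addSubgroupOf.1 ((QuotientAddGroup.eq_zero_iff _).1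
    ((NewformRep.picPushAlong_mk α hα hfin hN Dv).symm.trans hx))
  have hu0 : Algebra.norm F' f ≠ 0 := Algebra.norm_ne_zero_iff.2 hf
  have hord : ∀ v : Place K F', v.ord (Algebra.norm F' f) = (n : ℤ) * v.ord h := fun v => by
    have h1 : Divisor.pushforwardAlong α hα ((n : ℤ) • (Dv : Divisor K F)) v =
        v.ord (Algebra.norm F' f) := hN f hf _ (fun w => by simpa using hD w) v
    rw [← h1, map_zsmul, Finsupp.smul_apply, smul_eq_mul]
    exact congrArg _ (hh v)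
  obtain ⟨a, ha⟩ := NewformRep.exists_eq_const_mul hu0 hh0 n hord
  obtain ⟨cc, hcc, hcc'⟩ := hb.scale h hh0
  have hcc0 : cc ≠ 0 := fun e => hcc' (by
    rw [show (⟨_, hcc⟩ : V') = 0 from Subtype.ext (by simp [e]), map_zero])
  have hunit : IsUnit (⟨cc • h, hcc⟩ : V') := not_not.1 fun e => hcc' (hb.ker _ e)
  obtain ⟨⟨r, hr⟩, hrr⟩ := isUnit_iff_exists_inv.1 (hunit.pow n)
  obtain ⟨hN', hNe⟩ := hd.norm_red hb hij hi hj
  have ha' : Algebra.norm F' f = algebraMap K F' (a / cc ^ n) * (cc • h) ^ n := by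
    rw [ha, Algebra.smul_def, mul_pow, ← map_pow, ← mul_assoc, ← map_mul,
      div_mul_cancel₀ _ (pow_ne_zero _ hcc0)]
  have haV : algebraMap K F' (a / cc ^ n) ∈ V' := by
    have e : algebraMap K F' (a / cc ^ n) = Algebra.norm F' f * r := by
      have h1 : (cc • h) ^ n * r = 1 := congrArg Subtype.val hrr
      rw [ha', mul_assoc, h1, mul_one]
    exact e ▸ mul_mem hN' hr
  have hkey : R.φ i ⟨f, hi⟩ * D.c (R.φ j ⟨f, hj⟩) =
      algebraMap k E (R.π ⟨_, (hb.mem_iff _).1 haV⟩) * φ' ⟨cc • h, hcc⟩ ^ n := by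
    rw [← hNe, ← hb.red_algebraMap ⟨_, (hb.mem_iff _).1 haV⟩ haV, ← map_pow, ← map_mul]
    exact congrArg φ' (Subtype.ext ha')
  refine ⟨_, _, fun e => ?_, hcc', hkey⟩
  rw [e, map_zero, zero_mul] at hkey
  exact mul_ne_zero hi' ((map_ne_zero _).2 hj') hkey

omit [IsFunctionFieldOne k E] [Fact q.Prime] [CharP k q] in
/-- From `u c(v) = a h ^ n` and `v c(u) = b m ^ n`: `c² u` is `u` times an `n`-th power. -/
theorem exists_frobenius_sq_eq {n : ℕ} (hn : 0 < n) {u v h m : E} {a b : k}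
    (hu : u ≠ 0) (hv : v ≠ 0) (ha : a ≠ 0) (hb : b ≠ 0) (hh : h ≠ 0) (hm : m ≠ 0)
    (e₁ : u * D.c v = algebraMap k E a * h ^ n) (e₂ : v * D.c u = algebraMap k E b * m ^ n) :
    ∃ g : E, g ≠ 0 ∧ D.c (D.c u) = g ^ n * u := by
  obtain ⟨ξ, hξ⟩ := IsAlgClosed.exists_pow_nat_eq (b ^ q / a) hn
  have hξ0 : ξ ≠ 0 := fun h0 => by
    rw [h0, zero_pow hn.ne'] at hξ
    exact div_ne_zero (pow_ne_zero _ hb) ha hξ.symm
  have hξE : algebraMap k E ξ ^ n * algebraMap k E a = algebraMap k E (b ^ q) := by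
    rw [← map_pow, hξ, ← map_mul, div_mul_cancel₀ _ ha]
  have e₃ : D.c v * D.c (D.c u) = algebraMap k E (b ^ q) * D.c m ^ n := by
    rw [← map_mul, e₂, map_mul, D.c_algebraMap, map_pow D.c]
  refine ⟨algebraMap k E ξ * D.c m / h,
    div_ne_zero (mul_ne_zero ((map_ne_zero _).2 hξ0) ((map_ne_zero _).2 hm)) hh, ?_⟩
  refine mul_left_cancel₀ (mul_ne_zero hu ((map_ne_zero D.c).2 hv)) ?_
  calc u * D.c v * D.c (D.c u) = u * (D.c v * D.c (D.c u)) := mul_assoc _ _ _
    _ = u * (algebraMap k E (b ^ q) * D.c m ^ n) := by rw [e₃]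
    _ = u * D.c v * ((algebraMap k E ξ * D.c m / h) ^ n * u) := by
      rw [e₁, div_pow, mul_pow, ← hξE]
      field_simp

variable {g : SemilinearAut K F}

/-- On a torsion class killed by both push-forwards, `g² - 1` lands in the kernel of reduction. -/
theorem sq_smul_sub_mem_kernelGroup (hg : NewformRep.FrobeniusAction R D g) (hA : RankLeOne A)
    (hij : i ≠ j) (cover : ∀ l, l = i ∨ l = j) (hb : NewformRep.BaseReduction R V' φ')
    (hd : NewformRep.DegeneracyReduction R D α V' φ' i j)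
    (hd' : NewformRep.DegeneracyReduction R D β V' φ' j i)
    (hαi : α.toRingHom.IsIntegral) (hαf : FiniteAlong K α) (hαN : NormFormulaAlong K α hαf)
    (hβi : β.toRingHom.IsIntegral) (hβf : FiniteAlong K β) (hβN : NormFormulaAlong K β hβf)
    {n : ℕ} (hn : 0 < n) {x : Pic0 K F} (hx : x ∈ Pic0.torsion K F n)
    (hα : NewformRep.picPushAlong α hαi hαf hαN x = 0)
    (hβ : NewformRep.picPushAlong β hβi hβf hβN x = 0) :
    g • g • x - x ∈ OrdinaryDatum.kernelGroup R n := by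
  obtain ⟨Dv, f, hi, hj, hDx, hf, hD, hi', hj'⟩ := NewformRep.exists_uniform R hA hij hn hx
  subst hDx
  obtain ⟨a₁, h₁, ha₁, hh₁, e₁⟩ :=
    exists_norm_eq_pow hd hb hij hαi hαf hαN Dv hf hD hi hj hi' hj' hα
  obtain ⟨a₂, h₂, ha₂, hh₂, e₂⟩ :=
    exists_norm_eq_pow hd' hb hij.symm hβi hβf hβN Dv hf hD hj hi hj' hi' hβ
  have hord : ∀ (Z : Divisor.degZero (K := K) (F := F)) (z : F),
      (∀ v : Place K F, (n : ℤ) * (Z : Divisor K F) v = v.ord z) → ∀ v : Place K F,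
      (n : ℤ) * (SemilinearAut.degZeroSMulHom g Z : Divisor K F) v = v.ord (g • z) :=
    fun Z z hZ v => by
      obtain ⟨w, rfl⟩ : ∃ w, g • w = v := ⟨g⁻¹ • v, smul_inv_smul g v⟩
      rw [SemilinearAut.coe_degZeroSMulHom, SemilinearAut.divisor_smul_apply_smul,
        SemilinearAut.ord_smul, hZ w]
  have hgf : g • g • f ≠ 0 := by simp [hf]
  rw [SemilinearAut.pic0_smul_mk, SemilinearAut.pic0_smul_mk,
    show Pic0.mk (SemilinearAut.degZeroSMulHom g (SemilinearAut.degZeroSMulHom g Dv)) -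
        Pic0.mk Dv =
      Pic0.mk (SemilinearAut.degZeroSMulHom g (SemilinearAut.degZeroSMulHom g Dv) - Dv) from
      (QuotientAddGroup.mk_sub _ _ _).symm]
  refine mem_kernelGroup_of_forall_pow R _ (f := g • g • f * f⁻¹)
    (mul_ne_zero hgf (inv_ne_zero hf)) (fun v => ?_) fun l => ?_
  · rw [AddSubgroupClass.coe_sub, Finsupp.sub_apply, mul_sub,
      hord _ _ (hord Dv f hD) v, hD v, v.ord_mul hgf (inv_ne_zero hf), v.ord_inv]
    ring
  · obtain ⟨hl, hl', w, hw0, hw⟩ : ∃ (hl : f ∈ R.V l) (_ : R.φ l ⟨f, hl⟩ ≠ 0) (w : E),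
        w ≠ 0 ∧ D.c (D.c (R.φ l ⟨f, hl⟩)) = w ^ n * R.φ l ⟨f, hl⟩ := by
      rcases cover l with rfl | rfl
      · exact ⟨hi, hi', exists_frobenius_sq_eq hn hi' hj' ha₁ ha₂ hh₁ hh₂ e₁ e₂⟩
      · exact ⟨hj, hj', exists_frobenius_sq_eq hn hj' hi' ha₂ ha₁ hh₂ hh₁ e₂ e₁⟩
    have hgl : g • f ∈ R.V l := (hg.mem_V_iff l f).2 hl
    have hggl : g • g • f ∈ R.V l := (hg.mem_V_iff l _).2 hgl
    have hinv : f⁻¹ ∈ R.V l := R.inv_mem_V (f := ⟨f, hl⟩) hl'
    refine ⟨mul_mem hggl hinv, w, hw0, ?_⟩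
    have h1 : R.φ l ⟨g • g • f, hggl⟩ = D.c (D.c (R.φ l ⟨f, hl⟩)) := by
      rw [← hg.φ_smul l ⟨f, hl⟩]
      exact hg.φ_smul l ⟨g • f, hgl⟩
    have h2 : R.φ l ⟨f, hl⟩ * R.φ l ⟨f⁻¹, hinv⟩ = 1 := by
      rw [← map_mul]
      exact (congrArg (R.φ l) (Subtype.ext (mul_inv_cancel₀ hf))).trans (map_one _)
    rw [show (⟨g • g • f * f⁻¹, mul_mem hggl hinv⟩ : R.V l) = ⟨_, hggl⟩ * ⟨_, hinv⟩ from rfl,
      map_mul, h1, hw, mul_assoc, h2, mul_one]

end Frobenius

end Fermat.Agent.Strict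

end
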