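/-
Strict ordinarity at `p`: `p`-new torsion of `J₀(M p)` at `p`, `p ∤ M`: a squared Frobenius acts
trivially
modulo the kernel of reduction.
-/
import Fermat.Agent.Strict.Geometry
import Fermat.Agent.BadReduction.X0Compat
import Fermat.Agent.BadReduction.X0FrobeniusAction
import Fermat.Agent.Mazur.LocalRank
import Fermat.Agent.Curve.BasicModular

set_option autoImplicit false
set_option linter.style.haveILetI false
set_option synthInstance.maxHeartbeats 400000

noncomputable section

open ModularCurve IntermediateField IsLocalRing AlgebraicCurve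
open Fermat.Agent.Curve Fermat.Agent.Bad

namespace Fermat.Agent.Strict

local notation "ℚbar" => AlgebraicClosure ℚ

variable {M p : ℕ} [NeZero M] [hp : Fact p.Prime]

local instance neZero_primeStrict : NeZero p := ⟨hp.out.ne_zero⟩

/-- On `p^K`-torsion killed by both degeneracy push-forwards, the square of a Frobenius at `p`
is trivial modulo the kernel of reduction. -/
theorem galois_sq_smul_sub_mem_kernel (hpM : ¬ p ∣ M) (A : ValuationSubring ℚbar)
    (hA : A.LiesOverPrime p) {σ : ℚbar ≃ₐ[ℚ] ℚbar} (hσ : A.IsFrobeniusAt σ p) {K : ℕ}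
    {x : JZero (M * p)} (hx : p ^ K • x = 0)
    (hα : NewformRep.pushAlpha M p x = 0) (hβ : NewformRep.pushBeta M p x = 0) :
    σ • σ • x - x ∈ OrdinaryDatum.kernelGroup (BadReduction.x0Reduction hpM A hA) (p ^ K) := by
  haveI := BadReduction.charP_residueField A hp.out hA
  haveI : IsAlgClosed (ResidueField A) := Igusa.isAlgClosed_residueField hpM hA
  have hx' : x ∈ Pic0.torsion ℚbar (modularFunctionFieldBar (M * p)) (p ^ K) := by
    rw [Pic0.mem_torsion, natCast_zsmul]
    exact hx
  exact sq_smul_sub_mem_kernelGroup (i := (0 : Fin 2)) (j := 1)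
    (BadReduction.frobeniusAction_x0 A hpM hA hσ) (Mazur.rankLeOne_of_liesOverPrime hp.out hA)
    (by decide) (by decide) (BadReduction.baseReduction_x0 hpM A hA)
    (BadReduction.degeneracyReduction_alpha hpM A hA)
    (BadReduction.degeneracyReduction_beta hpM A hA)
    _ _ _ _ _ _ (pow_pos hp.out.pos K) hx' hα hβ

end Fermat.Agent.Strict

end
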