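/-
Strict ordinarity at `p`: on the part of `J₀(M p)[p^∞]` cut out by a good Hecke element vanishing
at level `M`
the square of a Frobenius at `p` is trivial modulo the kernel of reduction; hence the scalar by
which it acts on the unramified quotient of a `p`-new representation is a sign.
-/
import Fermat.Agent.Strict.X0
import Fermat.Agent.Lifting.GTransfer
import Fermat.Agent.NewformRep.Core
import Fermat.Agent.Integral.Main

set_option autoImplicit false

noncomputable section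

open scoped Matrix
open ModularCurve CuspForm IsLocalRing

namespace Fermat.Agent.Strict

open Fermat.Agent.GaloisAdic Fermat.Agent.Datum Fermat.Agent.Lifting

local notation "ℚbar" => AlgebraicClosure ℚ
local notation "Γℚ" => AlgebraicClosure ℚ ≃ₐ[ℚ] AlgebraicClosure ℚ

variable {M p : ℕ} [NeZero M] [hp : Fact p.Prime]

local instance neZero_primeStrictKernels : NeZero p := ⟨hp.out.ne_zero⟩

/-- The kernels of reduction at `P` are stable under inertia and without trivial constituent. -/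
def HasStableKernels (hpM : ¬ p ∣ M) (P : ValuationSubring ℚbar) (hP : P.LiesOverPrime p) : Prop :=
  ∀ K : ℕ,
    (∀ τ ∈ P.inertiaSubgroupIn ℚ, ∀ x ∈
      OrdinaryDatum.kernelGroup (BadReduction.x0Reduction hpM P hP) (p ^ K),
        τ • x ∈ OrdinaryDatum.kernelGroup (BadReduction.x0Reduction hpM P hP) (p ^ K)) ∧
      OrdinaryDatum.NoTriv p (OrdinaryDatum.jAct (M * p) P)
        (OrdinaryDatum.kernelGroup (BadReduction.x0Reduction hpM P hP) (p ^ K))

/-- A Hecke element whose image dies at level `M` under both degeneracy maps turns `σ² - 1` into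
a map to the kernels of reduction. -/
theorem hasQuadraticKernels_sq (hpM : ¬ p ∣ M) (hF : TorsionFacts (M * p) p)
    (F : TorsionFrame (M * p) p) (S : Set ℕ) {P : ValuationSubring ℚbar} (hP : P.LiesOverPrime p)
    (hker : HasStableKernels hpM P hP) {σ : Γℚ} (hσ : P.IsFrobeniusAt σ p)
    (t : heckeAlgebra (M * p) 2 S)
    (hα : ∀ K v, NewformRep.pushAlpha M p (F.e K (levelHecke F S K t *ᵥ v)) = 0)
    (hβ : ∀ K v, NewformRep.pushBeta M p (F.e K (levelHecke F S K t *ᵥ v)) = 0) :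
    HasQuadraticKernels F S P σ t 0 (-t) := by
  intro K
  refine ⟨_, (hker K).1, (hker K).2, fun v => ?_⟩
  have hcomm : levelHecke F S K t * levelAct F K (σ * σ) =
      levelAct F K (σ * σ) * levelHecke F S K t := levelHecke_commute F hF S K t (σ * σ)
  rw [levelQuadratic, map_zero, zero_mul, add_zero, hcomm, map_neg, Matrix.add_mulVec,
    Matrix.neg_mulVec, map_add, map_neg, ← sub_eq_add_neg, ← Matrix.mulVec_mulVec]
  show F.e K ((F.galMatrix (σ * σ)).map (PadicInt.toZModPow K) *ᵥ _) - _ ∈ _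
  rw [F.e_galMatrix, mul_smul]
  exact galois_sq_smul_sub_mem_kernel hpM P hP hσ
    (((F.isTorsionIso K).mem_range_iff _).1 ⟨_, rfl⟩) (hα K v) (hβ K v)

/-- A `p`-new system has a good Hecke element, not killed by its character, turning `σ² - 1`
into a map to the kernels of reduction. -/
theorem exists_hasQuadraticKernels_newform (hpM : ¬ p ∣ M)
    {g : CuspForm (CongruenceSubgroup.Gamma0 (M * p)) 2} (hg : g.IsNewform)
    (S : Finset ℕ) (hpS : p ∈ S) (hMS : ∀ r : ℕ, r.Prime → r ∣ M * p → r ∈ (↑S : Set ℕ))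
    (chig : heckeAlgebra (M * p) 2 (↑S : Set ℕ) →+* ℂ)
    (hchig : ∀ (ℓ : ℕ) (hℓ : ℓ.Prime) (hℓM : ¬ ℓ ∣ M * p) (hℓS : ℓ ∉ (↑S : Set ℕ)),
      chig (heckeAlgebra.T hℓ hℓM hℓS) = ModularFormClass.qCoeff g ℓ)
    {O : Type} [CommRing O] [IsDomain O] [CharZero O] (iota : chig.range →+* O)
    (F : TorsionFrame (M * p) p) {P : ValuationSubring ℚbar} (hP : P.LiesOverPrime p)
    (hker : HasStableKernels hpM P hP) {σ : Γℚ} (hσ : P.IsFrobeniusAt σ p) :
    ∃ t : heckeAlgebra (M * p) 2 (↑S : Set ℕ), iota (chig.rangeRestrict t) ≠ 0 ∧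
      HasQuadraticKernels F (↑S : Set ℕ) P σ t 0 (-t) := by
  have hMS' : ∀ r : ℕ, r.Prime → r ∣ M → r ∈ (↑S : Set ℕ) :=
    fun r hr h => hMS r hr (h.trans (dvd_mul_right M p))
  have hne : M ≠ M * p := fun h => hp.out.one_lt.ne
    (mul_left_cancel₀ (NeZero.ne M) ((mul_one M).trans h))
  obtain ⟨t, ht0, htg⟩ := NewformRep.exists_goodPoly (Integral.hasIntegralStructure M 2) hg
    (dvd_mul_right M p) hne S hMS chig hchig
  obtain ⟨F'⟩ := nonempty_torsionFrame M p
  have hF := torsionFacts (M * p) p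
  refine ⟨NewformRep.goodEval (M * p) hMS t, ?_,
    hasQuadraticKernels_sq hpM hF F _ hP hker hσ _ (fun K v => ?_) fun K v => ?_⟩
  · have := Eigen.heckeAlgebra_moduleFinite (Integral.hasIntegralStructure (M * p) 2) (↑S : Set ℕ)
    have : Algebra.IsIntegral ℤ chig.range := ⟨fun x => by
      obtain ⟨y, hy⟩ := chig.rangeRestrict_surjective x
      exact hy ▸ map_isIntegral_int chig.rangeRestrict (Algebra.IsIntegral.isIntegral y)⟩
    rw [map_ne_zero_iff _ (NewformRep.injective_of_integral iota)]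
    exact fun h => htg (congrArg Subtype.val h)
  · exact NewformRep.map_goodEval_eq_zero F F' hF (torsionFacts M p) hMS hMS' (by simpa using hpS)
      _ (NewformRep.pushAlpha_galois_smul M p) ht0 K v
  · exact NewformRep.map_goodEval_eq_zero F F' hF (torsionFacts M p) hMS hMS' (by simpa using hpS)
      _ (NewformRep.pushBeta_galois_smul M p) ht0 K v

/-- At a newform of level `M p`, `p ∤ M`, the square of the scalar by which a Frobenius at `p`
acts on an unramified coordinate is `1`. -/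
theorem sq_eq_one_of_newform (hpM : ¬ p ∣ M)
    {g : CuspForm (CongruenceSubgroup.Gamma0 (M * p)) 2} (hg : g.IsNewform)
    (S : Finset ℕ) (hpS : p ∈ S) (hMS : ∀ r : ℕ, r.Prime → r ∣ M * p → r ∈ S)
    (chig : heckeAlgebra (M * p) 2 (↑S : Set ℕ) →+* ℂ)
    (hchig : ∀ (ℓ : ℕ) (hℓ : ℓ.Prime) (hℓM : ¬ ℓ ∣ M * p) (hℓS : ℓ ∉ (↑S : Set ℕ)),
      chig (heckeAlgebra.T hℓ hℓM hℓS) = ModularFormClass.qCoeff g ℓ)
    {O : Type} [CommRing O] [IsDomain O] [IsLocalRing O] [IsNoetherianRing O]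
    [Finite (ResidueField O)] [CharZero O] (hpO : (p : O) ∈ maximalIdeal O)
    (iota : chig.range →+* O) (ρ : GaloisRepAdic O) (habs : ρ.residual.IsAbsolutelyIrreducible)
    (hρ : ∀ (ℓ : ℕ) (hℓ : ℓ.Prime) (hℓN : ¬ ℓ ∣ M * p) (hℓS : ℓ ∉ (↑S : Set ℕ)),
      ∀ A : ValuationSubring ℚbar, A.LiesOverPrime ℓ → ∀ τ : Γℚ, A.IsFrobeniusAt τ ℓ →
        LinearMap.charpoly (ρ.ρ τ) = Polynomial.X ^ 2
          - Polynomial.C (iota (chig.rangeRestrict (heckeAlgebra.T hℓ hℓN hℓS))) * Polynomial.X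
          + Polynomial.C (ℓ : O))
    {P : ValuationSubring ℚbar} (hP : P.LiesOverPrime p) (hker : HasStableKernels hpM P hP)
    (b : Module.Basis (Fin 2) O ρ.V)
    (hI : ∀ τ ∈ P.inertiaSubgroupIn ℚ, ∀ v : ρ.V, b.repr (ρ.ρ τ v) 1 = b.repr v 1)
    {σ : Γℚ} (hσ : P.IsFrobeniusAt σ p)
    {z : O} (hz : ∀ v : ρ.V, b.repr (ρ.ρ σ v) 1 = z * b.repr v 1) :
    z ^ 2 = 1 := by
  obtain ⟨F⟩ := nonempty_torsionFrame (M * p) p
  obtain ⟨t, ht, hC⟩ := exists_hasQuadraticKernels_newform hpM hg S hpS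
    (fun r hr h => Finset.mem_coe.2 (hMS r hr h)) chig hchig iota F hP hker hσ
  have h := eq_zero_of_hasQuadraticKernels (torsionFacts (M * p) p) F (subset_refl S) hpS hMS hpO
    (iota.comp chig.rangeRestrict) ρ habs
    (fun ℓ hℓ hℓN hℓS _ A hA τ hτ => hρ ℓ hℓ hℓN hℓS A hA τ hτ) b hI hz hC
  rw [map_zero, zero_mul, add_zero, map_neg, ← sub_eq_add_neg, RingHom.comp_apply] at h
  have h' : iota (chig.rangeRestrict t) * (z ^ 2 - 1) = 0 := by rw [mul_sub, mul_one]; exact h
  exact sub_eq_zero.1 ((mul_eq_zero.1 h').resolve_left ht)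

end Fermat.Agent.Strict

end
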