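/-
Strict ordinarity at `p`, Galois side: descent of a character of a Hecke algebra to the Hecke
algebra of the
level of its newform, and the sign at `p` when that level is prime to `p`.
-/
import Fermat.Agent.Strict.X0Kernels
import Fermat.Agent.Lifting.GTrace
import Fermat.Agent.Lifting.GUnitRoot

set_option autoImplicit false

noncomputable section

open CuspForm IsLocalRing

namespace Fermat.Agent.Strict

open Fermat.Agent.Lifting Fermat.Agent.GaloisAdic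

local notation "ℚbar" => AlgebraicClosure ℚ
local notation "Γℚ" => AlgebraicClosure ℚ ≃ₐ[ℚ] AlgebraicClosure ℚ

/-- The eigencharacter of a newform whose eigenvalues outside `S` lie in the image of an embedded
subring of `O` takes values in `O`. -/
theorem exists_iota_of_embedded {O : Type*} [CommRing O] {M : ℕ} [NeZero M]
    {g : CuspForm (CongruenceSubgroup.Gamma0 M) 2} (hg : g.IsNewform) {S : Finset ℕ}
    (hMS : ∀ r : ℕ, r.Prime → r ∣ M → r ∈ S)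
    {R : Subring O} {j : R →+* ℂ} (hj : Function.Injective j) (b : ℕ → R)
    (hb : ∀ ℓ : ℕ, ℓ.Prime → ℓ ∉ S → ModularFormClass.qCoeff g ℓ = j (b ℓ)) :
    ∃ iota : (Eigen.eigenChar g hg.1 (↑S : Set ℕ)).range →+* O,
      ∀ (ℓ : ℕ) (hℓ : ℓ.Prime) (hℓM : ¬ ℓ ∣ M) (hℓS : ℓ ∉ (↑S : Set ℕ)),
        iota ((Eigen.eigenChar g hg.1 (↑S : Set ℕ)).rangeRestrict
          (heckeAlgebra.T hℓ hℓM hℓS)) = b ℓ := by
  have hgen : ∀ t : heckeAlgebra M 2 (↑S : Set ℕ),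
      Eigen.eigenChar g hg.1 (↑S : Set ℕ) t ∈ j.range := by
    rintro ⟨t, ht⟩
    induction ht using Algebra.adjoin_induction with
    | mem x hx =>
      rcases hx with ⟨ℓ, hℓ, hℓM, hℓS, rfl⟩ | ⟨r, hrM, hr, hrS, rfl⟩
      · exact ⟨b ℓ, ((Eigen.eigenChar_T hg.1 hℓ hℓM hℓS).trans
          (hb ℓ hℓ (by simpa using hℓS))).symm⟩
      · exact absurd (by simpa using hMS r hr hrM) hrS
    | algebraMap m =>
      refine ⟨(m : R), ?_⟩
      rw [map_intCast, show (⟨algebraMap ℤ _ m, _⟩ : heckeAlgebra M 2 (↑S : Set ℕ))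
        = algebraMap ℤ _ m from rfl, eq_intCast, map_intCast]
    | add x y hx hy ihx ihy =>
      rw [show (⟨x + y, _⟩ : heckeAlgebra M 2 (↑S : Set ℕ)) = ⟨x, hx⟩ + ⟨y, hy⟩ from rfl, map_add]
      exact j.range.add_mem ihx ihy
    | mul x y hx hy ihx ihy =>
      rw [show (⟨x * y, _⟩ : heckeAlgebra M 2 (↑S : Set ℕ)) = ⟨x, hx⟩ * ⟨y, hy⟩ from rfl, map_mul]
      exact j.range.mul_mem ihx ihy
  have hle : (Eigen.eigenChar g hg.1 (↑S : Set ℕ)).range ≤ j.range := by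
    rintro _ ⟨t, rfl⟩
    exact hgen t
  let e : R ≃+* j.range := RingEquiv.ofBijective j.rangeRestrict
    ⟨fun x y h => hj (congrArg Subtype.val h), j.rangeRestrict_surjective⟩
  refine ⟨R.subtype.comp (e.symm.toRingHom.comp (Subring.inclusion hle)),
    fun ℓ hℓ hℓM hℓS => congrArg Subtype.val (e.injective ?_)⟩
  show e (e.symm _) = _
  rw [RingEquiv.apply_symm_apply]
  exact Subtype.ext ((Eigen.eigenChar_T hg.1 hℓ hℓM hℓS).trans (hb ℓ hℓ (by simpa using hℓS)))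

/-- The newform of a character of a Hecke algebra with values in a domain of characteristic
zero; at a prime dividing the level once, outside the excluded set and not dividing the level of
the newform, a sign gives the eigenvalue `± (q + 1)` of the newform. -/
theorem exists_newform_of_hom {O : Type*} [CommRing O] [IsDomain O] [CharZero O]
    {N : ℕ} [NeZero N] {S' : Finset ℕ} (S : Finset ℕ) (hsub : S' ⊆ S)
    (hNS : ∀ r : ℕ, r.Prime → r ∣ N → r ∈ S)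
    (χ : heckeAlgebra N 2 (↑S' : Set ℕ) →+* O) :
    ∃ (M : ℕ) (_ : NeZero M) (g : CuspForm (CongruenceSubgroup.Gamma0 M) 2) (_ : g.IsNewform)
      (j : χ.range →+* ℂ) (b : ℕ → χ.range),
      M ∣ N ∧ Function.Injective j ∧
      (∀ ℓ : ℕ, ℓ.Prime → ℓ ∉ S → ModularFormClass.qCoeff g ℓ = j (b ℓ)) ∧
      (∀ (ℓ : ℕ) (hℓ : ℓ.Prime) (hℓN : ¬ ℓ ∣ N) (hℓS : ℓ ∉ (↑S' : Set ℕ)), ℓ ∉ S →
        (b ℓ : O) = χ (heckeAlgebra.T hℓ hℓN hℓS)) ∧
      ∀ (q : ℕ) (hq : q.Prime) (hqN : q ∣ N) (hqS : q ∉ (↑S' : Set ℕ)),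
        ¬ q ^ 2 ∣ N → ¬ q ∣ M → χ (heckeAlgebra.U hq hqN hqS) ^ 2 = 1 →
        ModularFormClass.qCoeff g q =
          j (χ.rangeRestrict (heckeAlgebra.U hq hqN hqS) * ((q : χ.range) + 1)) := by
  classical
  haveI : Module.Finite ℤ (heckeAlgebra N 2 (↑S' : Set ℕ)) :=
    Integral.moduleFinite_heckeAlgebra N 2 _
  obtain ⟨j, hj⟩ := exists_injective_ringHom_range χ
  obtain ⟨f, hf, hfT, hfU⟩ := Eigen.exists_eigenform_qCoeff_of_ringHom
    (Integral.hasIntegralStructure N 2) (j.comp χ.rangeRestrict)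
  obtain ⟨M, hMN, hMpos, g, hg, hgf⟩ := Newform.exists_newform_of_eigenform hf
  haveI : NeZero M := ⟨hMpos.ne'⟩
  let b : ℕ → χ.range := fun ℓ =>
    if hℓ : ℓ.Prime ∧ ¬ ℓ ∣ N ∧ ℓ ∉ (↑S' : Set ℕ) then
      χ.rangeRestrict (heckeAlgebra.T hℓ.1 hℓ.2.1 hℓ.2.2) else 0
  refine ⟨M, inferInstance, g, hg, j, b, hMN, hj, fun ℓ hℓ hℓS => ?_, fun ℓ hℓ hℓN hℓS' _ => ?_,
    fun q hq hqN hqS' hq2 hqM hε => ?_⟩
  · have hℓN : ¬ ℓ ∣ N := fun hd => hℓS (hNS ℓ hℓ hd)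
    have hℓS' : ℓ ∉ (↑S' : Set ℕ) := fun hm => hℓS (hsub (Finset.mem_coe.1 hm))
    simp only [b, dif_pos (show ℓ.Prime ∧ ¬ ℓ ∣ N ∧ ℓ ∉ (↑S' : Set ℕ) from ⟨hℓ, hℓN, hℓS'⟩)]
    exact (hgf ℓ hℓ hℓN).trans (hfT ℓ hℓ hℓN hℓS')
  · simp only [b, dif_pos (show ℓ.Prime ∧ ¬ ℓ ∣ N ∧ ℓ ∉ (↑S' : Set ℕ) from ⟨hℓ, hℓN, hℓS'⟩)]
    rfl
  · set ε : χ.range := χ.rangeRestrict (heckeAlgebra.U hq hqN hqS') with hεdef
    have hfq : ModularFormClass.qCoeff f q = j ε := hfU q hq hqN hqS'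
    have hε2 : ε ^ 2 = 1 := Subtype.ext hε
    obtain ⟨N', hN'⟩ := hqN
    haveI : NeZero N' := ⟨fun h0 => NeZero.ne N (by rw [hN', h0, mul_zero])⟩
    have hqN' : ¬ q ∣ N' := fun hd => hq2 (by rw [hN', sq]; exact mul_dvd_mul_left q hd)
    have hMN' : M ∣ N' :=
      (((Nat.Prime.coprime_iff_not_dvd hq).2 hqM).symm).dvd_of_dvd_mul_left (hN' ▸ hMN)
    have hold := Ribet.qCoeff_sq_sub_mul_add_eq_zero hq hqN' hN' hMN' hf hg.1 ∅
      fun r hr _ hrN => hgf r hr hrN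
    have he2 : j ε * j ε = 1 := by rw [← map_mul, ← sq, hε2, map_one]
    rw [map_mul, map_add, map_natCast, map_one]
    rw [hfq] at hold
    linear_combination (-(j ε)) * hold + (j ε - ModularFormClass.qCoeff g q) * he2

/-- At a newform level prime to `p` with eigenvalue `± (p + 1)` at `p`, the scalar on the
unramified quotient of an ordinary representation is that sign. -/
theorem sq_eq_one_of_good {M p : ℕ} [NeZero M] [hp : Fact p.Prime] (hpM : ¬ p ∣ M)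
    {S : Finset ℕ} (hpS : p ∈ S) (hMS : ∀ r : ℕ, r.Prime → r ∣ M → r ∈ S)
    {O : Type} [CommRing O] [IsDomain O] [IsLocalRing O] [IsNoetherianRing O]
    [Finite (ResidueField O)] [CharZero O] (hpO : (p : O) ∈ maximalIdeal O)
    (χ : heckeAlgebra M 2 (↑(S.erase p) : Set ℕ) →+* O) (ε : O) (hε : ε ^ 2 = 1)
    (hχp : χ (heckeAlgebra.T hp.out hpM (by simp)) = ε * ((p : O) + 1))
    (ρ : GaloisRepAdic O) (habs : ρ.residual.IsAbsolutelyIrreducible)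
    (hρ : ∀ (ℓ : ℕ) (hℓ : ℓ.Prime) (hℓN : ¬ ℓ ∣ M) (hℓS : ℓ ∉ (↑(S.erase p) : Set ℕ)), ℓ ∉ S →
      ∀ A : ValuationSubring ℚbar, A.LiesOverPrime ℓ → ∀ τ : Γℚ, A.IsFrobeniusAt τ ℓ →
        LinearMap.charpoly (ρ.ρ τ) = Polynomial.X ^ 2
          - Polynomial.C (χ (heckeAlgebra.T hℓ hℓN hℓS)) * Polynomial.X + Polynomial.C (ℓ : O))
    (hgood : HasGoodKernels M p)
    {P : ValuationSubring ℚbar} (hP : P.LiesOverPrime p)
    (b : Module.Basis (Fin 2) O ρ.V)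
    (hI : ∀ τ ∈ P.inertiaSubgroupIn ℚ, ∀ v : ρ.V, b.repr (ρ.ρ τ v) 1 = b.repr v 1)
    {σ : Γℚ} (hσ : P.IsFrobeniusAt σ p)
    {z : O} (hz : ∀ v : ρ.V, b.repr (ρ.ρ σ v) 1 = z * b.repr v 1) (hu : IsUnit z) :
    z ^ 2 = 1 := by
  have hpS' : p ∉ (↑(S.erase p) : Set ℕ) := by simp
  obtain ⟨F⟩ := nonempty_torsionFrame M p
  obtain ⟨c, hC⟩ := hgood P hP σ hσ
  have hrel := eq_zero_of_hasQuadraticKernels (torsionFacts M p) F (Finset.erase_subset p S)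
    hpS hMS hpO χ ρ habs hρ b hI hz (hasQuadraticKernels_of_hasGoodKernels F hpM hpS' hC)
  rw [map_neg, map_mul, map_natCast, map_natCast, hχp] at hrel
  push_cast at hrel
  have hp0 : ((p : O) ^ c) ≠ 0 := pow_ne_zero _ (Nat.cast_ne_zero.2 hp.out.ne_zero)
  have hfac : (z - ε) * (z - ε * (p : O)) = 0 := by
    refine mul_left_cancel₀ hp0 ?_
    linear_combination hrel + ((p : O) ^ c * (p : O)) * hε
  rcases mul_eq_zero.1 hfac with h | h
  · rw [sub_eq_zero.1 h, hε]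
  · rw [sub_eq_zero.1 h] at hu
    exact absurd (isUnit_of_mul_isUnit_right hu) hpO

end Fermat.Agent.Strict
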