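/-
Strict ordinarity at `p`, Galois side: on an ordinary line, once the square of the scalar by which
one
Frobenius element acts on the unramified quotient is `1`, the representation is strict ordinary.
-/
import Fermat.Agent.OrdinaryDatum.Criterion
import Fermat.Agent.Galois.TamePlace
import Fermat.Prelude.Def_GaloisRep_StrictOrdinary
import Mathlib.FieldTheory.Normal.Closure

set_option autoImplicit false

noncomputable section

namespace Fermat.Agent.Strict

open IsLocalRing

local notation "ℚbar" => AlgebraicClosure ℚ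
local notation "Γℚ" => AlgebraicClosure ℚ ≃ₐ[ℚ] AlgebraicClosure ℚ

variable {O : Type} [CommRing O] [IsLocalRing O]

section Basis

variable {V : Type} [AddCommGroup V] [Module O V] (b : Module.Basis (Fin 2) O V)

/-- The first basis vector spans the kernel of the second coordinate. -/
theorem mem_span_zero_iff (v : V) : v ∈ Submodule.span O {b 0} ↔ b.repr v 1 = 0 := by
  rw [Submodule.mem_span_singleton]
  constructor
  · rintro ⟨t, rfl⟩
    simp
  · intro h1
    refine ⟨b.repr v 0, ?_⟩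
    conv_rhs => rw [← b.sum_repr v, Fin.sum_univ_two, h1, zero_smul, add_zero]

/-- An operator stabilising the first line acts by a scalar on the second coordinate. -/
theorem repr_one_apply {f : Module.End O V} (hf : b.repr (f (b 0)) 1 = 0) (v : V) :
    b.repr (f v) 1 = b.repr (f (b 1)) 1 * b.repr v 1 := by
  have h := congrArg (fun u => b.repr (f u) 1) (b.sum_repr v)
  simp only [Fin.sum_univ_two, map_add, map_smul, Finsupp.add_apply, Finsupp.smul_apply,
    smul_eq_mul, hf, mul_zero, zero_add] at h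
  rw [← h, mul_comm]

end Basis

variable [IsHausdorff (maximalIdeal O) O]

/-- The scalar on the unramified quotient has square `1` on the decomposition group as soon as it
has for one Frobenius element. -/
theorem sq_eq_one_of_frobenius (ρ : GaloisRepAdic O) {p : ℕ} (hp : p.Prime)
    {P : ValuationSubring ℚbar} (hP : P.LiesOverPrime p) (b : Module.Basis (Fin 2) O ρ.V)
    (hD : ∀ g ∈ P.decompositionSubgroup ℚ, b.repr (ρ.ρ g (b 0)) 1 = 0)
    (hI : ∀ τ ∈ P.inertiaSubgroupIn ℚ, ∀ v : ρ.V, b.repr (ρ.ρ τ v) 1 = b.repr v 1)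
    {σ : Γℚ} (hσ : P.IsFrobeniusAt σ p) (hsq : b.repr (ρ.ρ σ (b 1)) 1 ^ 2 = 1)
    {g : Γℚ} (hg : g ∈ P.decompositionSubgroup ℚ) : b.repr (ρ.ρ g (b 1)) 1 ^ 2 = 1 := by
  have hσD := hσ.mem_decompositionSubgroup
  set z := b.repr (ρ.ρ σ (b 1)) 1 with hz
  have hpow : ∀ (j : ℕ) (v : ρ.V), b.repr (ρ.ρ (σ ^ j) v) 1 = z ^ j * b.repr v 1 := by
    intro j
    induction j with
    | zero => intro v; rw [pow_zero, map_one ρ.ρ, Module.End.one_apply, pow_zero, one_mul]
    | succ j ih =>
      intro v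
      rw [pow_succ', map_mul, Module.End.mul_apply, repr_one_apply b (hD σ hσD), ih, ← hz]
      ring
  refine sub_eq_zero.1 (IsHausdorff.haus (inferInstance : IsHausdorff (maximalIdeal O) O) _
    fun n => ?_)
  rw [SModEq.zero]
  simp only [smul_eq_mul, Ideal.mul_top]
  obtain ⟨L₀, hL₀, hcont⟩ := ρ.isAdicContinuous n
  have := hL₀
  let L : IntermediateField ℚ ℚbar := IntermediateField.normalClosure ℚ L₀ ℚbar
  have hfin : FiniteDimensional ℚ L := inferInstanceAs
    (FiniteDimensional ℚ (IntermediateField.normalClosure ℚ L₀ ℚbar))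
  have hnor : Normal ℚ L := normalClosure.normal ℚ L₀ ℚbar
  obtain ⟨j, h, hh, hgh⟩ := Galois.exists_decomposition_eq (A := P) (L := L) hp hP hσ hg
  have hk : ∀ x ∈ L₀, ((σ ^ j * h)⁻¹ * g) x = x := fun x hx => by
    rw [AlgEquiv.mul_apply, hgh x ((IntermediateField.le_normalClosure L₀) hx),
      ← AlgEquiv.mul_apply, inv_mul_cancel, AlgEquiv.one_apply]
  set t := b.repr (ρ.ρ ((σ ^ j * h)⁻¹ * g) (b 1)) 1 with ht
  have ht1 : t - 1 ∈ maximalIdeal O ^ n := by
    have := OrdinaryDatum.repr_mem_of_mem_smul_top b _ (hcont _ hk (b 1)) 1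
    rwa [map_sub, Finsupp.sub_apply, b.repr_self, Finsupp.single_eq_same] at this
  have hzg : b.repr (ρ.ρ g (b 1)) 1 = z ^ j * t := by
    conv_lhs => rw [show g = σ ^ j * (h * ((σ ^ j * h)⁻¹ * g)) by group]
    rw [map_mul, Module.End.mul_apply, hpow, map_mul, Module.End.mul_apply, hI h hh]
  have he : b.repr (ρ.ρ g (b 1)) 1 ^ 2 - 1 = (t - 1) * (t + 1) := by
    rw [hzg, mul_pow, ← pow_mul, mul_comm j 2, pow_mul, hsq, one_pow, one_mul]
    ring
  rw [he]
  exact Ideal.mul_mem_right _ _ ht1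

/-- Strictness from the square of one Frobenius scalar. -/
theorem exists_scalars_of_frobenius (ρ : GaloisRepAdic O) {p : ℕ} (hp : p.Prime)
    (hdet : ρ.DetIsCyclotomic p) {P : ValuationSubring ℚbar} (hP : P.LiesOverPrime p)
    (b : Module.Basis (Fin 2) O ρ.V)
    (hD : ∀ g ∈ P.decompositionSubgroup ℚ, b.repr (ρ.ρ g (b 0)) 1 = 0)
    (hI : ∀ τ ∈ P.inertiaSubgroupIn ℚ, ∀ v : ρ.V, b.repr (ρ.ρ τ v) 1 = b.repr v 1)
    {σ : Γℚ} (hσ : P.IsFrobeniusAt σ p) (hsq : b.repr (ρ.ρ σ (b 1)) 1 ^ 2 = 1)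
    {g : Γℚ} (hg : g ∈ P.decompositionSubgroup ℚ) :
    ∃ x z : O, (∀ w ∈ Submodule.span O {b 0}, ρ.ρ g w = x • w) ∧
      (∀ v : ρ.V, ρ.ρ g v - z • v ∈ Submodule.span O {b 0}) ∧
      ∀ (n a : ℕ), (∀ μ : ℚbar, μ ^ p ^ n = 1 → g μ = μ ^ a) →
        x - (a : O) * z ∈ Ideal.span {((p ^ n : ℕ) : O)} := by
  set x := b.repr (ρ.ρ g (b 0)) 0 with hx
  set z := b.repr (ρ.ρ g (b 1)) 1 with hz
  have h10 := hD g hg
  refine ⟨x, z, fun w hw => ?_, fun v => ?_, fun n a ha => ?_⟩
  · obtain ⟨t, rfl⟩ := Submodule.mem_span_singleton.1 hw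
    have hb : ρ.ρ g (b 0) = x • b 0 := by
      conv_lhs => rw [← b.sum_repr (ρ.ρ g (b 0))]
      rw [Fin.sum_univ_two, h10, zero_smul, add_zero]
    rw [map_smul, hb, smul_comm]
  · rw [mem_span_zero_iff, map_sub, Finsupp.sub_apply, map_smul, Finsupp.smul_apply, smul_eq_mul,
      repr_one_apply b h10, sub_self]
  · have hd : LinearMap.det (ρ.ρ g) = x * z := by
      rw [OrdinaryDatum.det_eq_of_triangular b, h10, mul_zero, sub_zero]
    have hsq' : z ^ 2 = 1 := sq_eq_one_of_frobenius ρ hp hP b hD hI hσ hsq hg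
    have h := hdet.2 n g a ha
    rw [hd] at h
    have e : x - (a : O) * z = z * (x * z - a) := by linear_combination (-x) * hsq'
    rw [e]
    exact Ideal.mul_mem_left _ _ h

end Fermat.Agent.Strict
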