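/-
Strict ordinarity at `p`: the kernels of reduction at an odd `p` exactly dividing the level are
stable under
inertia and without trivial constituent.
-/
import Fermat.Agent.Strict.X0Kernels
import Fermat.Agent.OrdinaryDatum.KernelX0

set_option autoImplicit false

noncomputable section

namespace Fermat.Agent.Strict

local notation "ℚbar" => AlgebraicClosure ℚ

variable {M p : ℕ} [NeZero M] [hp : Fact p.Prime]

theorem hasStableKernels (hp2 : p ≠ 2) (hpM : ¬ p ∣ M) (P : ValuationSubring ℚbar)
    (hP : P.LiesOverPrime p) : HasStableKernels hpM P hP := fun K =>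
  ⟨fun _ hτ _ hx => OrdinaryDatum.smul_mem_x0Kernel hpM P hP K hτ hx,
    OrdinaryDatum.noTriv_x0Kernel hpM P hP
      (by have := hp.out.two_le; omega) K⟩

end Fermat.Agent.Strict

end
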