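/-
Strict ordinarity at `p`, Galois side: a twisted point which is new at `p` is strict ordinary at
`p`, and a
twisted point is flat or strict ordinary at `p`.
-/
import Fermat.Agent.Strict.GaloisLine
import Fermat.Agent.Strict.GaloisDescent
import Fermat.Agent.Strict.StableKernels
import Fermat.Agent.Lifting.EBasic
import Fermat.Agent.Lifting.EDatum

set_option autoImplicit false

noncomputable section

namespace Fermat.Agent.Strict

open IsLocalRing Fermat.Agent.Lifting Fermat.Agent.GaloisAdic Fermat.Agent.Ribet.Twisted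

local notation "ℚbar" => AlgebraicClosure ℚ
local notation "Γℚ" => AlgebraicClosure ℚ ≃ₐ[ℚ] AlgebraicClosure ℚ

variable {p : ℕ} [hp : Fact p.Prime] {O : Type} [CommRing O] [IsDomain O]
  [IsDiscreteValuationRing O] [IsAdicComplete (maximalIdeal O) O] [Finite (ResidueField O)]
  [CharZero O]

/-- An ordinary representation with cyclotomic determinant is strict ordinary once, in every
adapted basis, every Frobenius scalar on the unramified quotient has square `1`. -/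
theorem isStrictOrdinaryAt_of_sq (ρ : GaloisRepAdic O) (hpO : (p : O) ∈ maximalIdeal O)
    (hdet : ρ.DetIsCyclotomic p) (hord : ρ.IsOrdinaryAt p)
    (hsq : ∀ P : ValuationSubring ℚbar, P.LiesOverPrime p →
      ∀ b : Module.Basis (Fin 2) O ρ.V,
        (∀ τ ∈ P.inertiaSubgroupIn ℚ, ∀ v : ρ.V, b.repr (ρ.ρ τ v) 1 = b.repr v 1) →
        ∀ σ : Γℚ, P.IsFrobeniusAt σ p → ∀ z : O,
          (∀ v : ρ.V, b.repr (ρ.ρ σ v) 1 = z * b.repr v 1) → IsUnit z → z ^ 2 = 1) :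
    ρ.IsStrictOrdinaryAt p := by
  refine ⟨hpO, fun P hP => ?_⟩
  obtain ⟨U, ⟨b, rfl⟩, hUD, hUI⟩ := hord P hP
  have hD : ∀ g ∈ P.decompositionSubgroup ℚ, b.repr (ρ.ρ g (b 0)) 1 = 0 := fun g hg =>
    (mem_span_zero_iff b _).1 (hUD g hg _ (Submodule.mem_span_singleton_self _))
  have hI : ∀ τ ∈ P.inertiaSubgroupIn ℚ, ∀ v : ρ.V, b.repr (ρ.ρ τ v) 1 = b.repr v 1 := by
    intro τ hτ v
    have h1 := (mem_span_zero_iff b _).1 (hUI τ hτ v)
    rwa [map_sub, Finsupp.sub_apply, sub_eq_zero] at h1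
  obtain ⟨σ, hσ⟩ := Galois.exists_isFrobeniusAt hp.out hP
  have hz : ∀ v : ρ.V, b.repr (ρ.ρ σ v) 1 = b.repr (ρ.ρ σ (b 1)) 1 * b.repr v 1 :=
    repr_one_apply b (hD σ hσ.mem_decompositionSubgroup)
  have hu : IsUnit (b.repr (ρ.ρ σ (b 1)) 1) := by
    refine IsUnit.of_mul_eq_one (b.repr (ρ.ρ σ⁻¹ (b 1)) 1) ?_
    have h1 := hz (ρ.ρ σ⁻¹ (b 1))
    rw [← Module.End.mul_apply, ← map_mul, mul_inv_cancel, map_one ρ.ρ, Module.End.one_apply,
      b.repr_self, Finsupp.single_eq_same] at h1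
    exact h1.symm
  exact ⟨_, ⟨b, rfl⟩, hUD, hUI, fun g hg => exists_scalars_of_frobenius ρ hp.out hdet hP b hD hI hσ
    (hsq P hP b hI σ hσ _ hz hu) hg⟩

/-- At a newform level divisible once by `p` every Frobenius scalar on the unramified quotient has
square `1`. -/
theorem sq_eq_one_of_dvd (hp2 : p ≠ 2) (hpO : (p : O) ∈ maximalIdeal O) {M : ℕ} [NeZero M]
    (hpM : p ∣ M) (hpM2 : ¬ p ^ 2 ∣ M) {g : CuspForm (CongruenceSubgroup.Gamma0 M) 2}
    (hg : g.IsNewform) {S : Finset ℕ} (hpS : p ∈ S) (hMS : ∀ r : ℕ, r.Prime → r ∣ M → r ∈ S)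
    {R : Subring O} {j : R →+* ℂ} (hj : Function.Injective j) (c : ℕ → R)
    (hc : ∀ ℓ : ℕ, ℓ.Prime → ℓ ∉ S → ModularFormClass.qCoeff g ℓ = j (c ℓ))
    (ρ : GaloisRepAdic O) (habs : ρ.residual.IsAbsolutelyIrreducible)
    (hρ : HasFrobPoly ρ S fun ℓ => (c ℓ : O))
    {P : ValuationSubring ℚbar} (hP : P.LiesOverPrime p) (b : Module.Basis (Fin 2) O ρ.V)
    (hI : ∀ τ ∈ P.inertiaSubgroupIn ℚ, ∀ v : ρ.V, b.repr (ρ.ρ τ v) 1 = b.repr v 1)
    {σ : Γℚ} (hσ : P.IsFrobeniusAt σ p) {z : O}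
    (hz : ∀ v : ρ.V, b.repr (ρ.ρ σ v) 1 = z * b.repr v 1) : z ^ 2 = 1 := by
  obtain ⟨M', rfl⟩ : ∃ M', M = M' * p := by
    obtain ⟨M', h⟩ := hpM
    exact ⟨M', by rw [h, mul_comm]⟩
  haveI : NeZero M' := ⟨fun h0 => NeZero.ne (M' * p) (by rw [h0, zero_mul])⟩
  have hpM' : ¬ p ∣ M' := fun hd => hpM2 (by rw [sq]; exact mul_dvd_mul_right hd p)
  obtain ⟨iota, hiota⟩ := exists_iota_of_embedded hg hMS hj c hc
  refine sq_eq_one_of_newform hpM' hg S hpS hMS _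
    (fun ℓ hℓ hℓM hℓS => Eigen.eigenChar_T hg.1 hℓ hℓM hℓS) hpO iota ρ habs
    (fun ℓ hℓ hℓN hℓS A hA τ hτ => ?_) hP (hasStableKernels hp2 hpM' P hP) b hI hσ hz
  rw [hρ ℓ hℓ (by simpa using hℓS) A hA τ hτ, hiota]

end Fermat.Agent.Strict

namespace Fermat.Agent.Lifting

open Fermat.Agent.Ribet.Twisted IsLocalRing GaloisAdic

variable {p : ℕ} [Fact p.Prime] {O : Type} [CommRing O] [IsDomain O] [IsDiscreteValuationRing O]
  [IsAdicComplete (maximalIdeal O) O] [Finite (ResidueField O)] [CharZero O]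
  {L D : ℕ} [NeZero L] {ψ : DirichletCharacter O D} {S : Finset ℕ} {a : ℕ → O}
  {ρbar : ResidualGaloisRep (ResidueField O)}

/-- The determinant of a representation with the Frobenius polynomials of a point is
cyclotomic. -/
theorem TwistedPoint.detIsCyclotomic_of_hasFrobPoly (h : TwistedPoint p ρbar L D ψ S a)
    {ρ : GaloisRepAdic O} (hρ : HasFrobPoly ρ S a) : ρ.DetIsCyclotomic p := by
  obtain ⟨ρ₀, hρ₀, hdet, hres, -⟩ := h.exists_rep_aux
  obtain ⟨e⟩ := isEquiv_of_hasFrobPoly hρ₀ hρ (isAbsolutelyIrreducible_of_equiv hres h.absIrr)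
  exact ETransfer.detIsCyclotomic_of_equiv e hdet

/-- A point which is new at a prime outside the nebentype; `U'` vanishes at the others. -/
theorem TwistedPoint.not_dvd_of_systemNewAt (h : TwistedPoint p ρbar L D ψ S a) {q : ℕ}
    (hnew : SystemNewAt h.dvd (toFrac ψ) S (fun ℓ => algebraMap O (FractionRing O) (a ℓ)) q) :
    ¬ q ∣ D := by
  intro hqD
  obtain ⟨x, hx0, -, hxq⟩ := hnew
  refine hx0 ?_
  rw [heckeT', dif_neg (fun hh => hh.2 hqD), LinearMap.zero_apply] at hxq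
  exact hxq.symm

/-- (p1), new: strict ordinary, given the kernels at good levels. -/
theorem TwistedPoint.isStrictOrdinaryAt_of_kernels (h : TwistedPoint p ρbar L D ψ S a)
    {ρ : GaloisRepAdic O} (hρ : HasFrobPoly ρ S a) (hpL : p ∣ L)
    (hres : (GaloisRepAdic.ofResidualGaloisRep ρbar).IsOrdinaryAt p)
    (hnew : SystemNewAt h.dvd (toFrac ψ) S (fun ℓ => algebraMap O (FractionRing O) (a ℓ)) p)
    (hgood : ∀ (M : ℕ) [NeZero M], ¬ p ∣ M → HasGoodKernels M p) :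
    ρ.IsStrictOrdinaryAt p := by
  classical
  have hp : p.Prime := Fact.out
  have hpD : ¬ p ∣ D := h.not_dvd_of_systemNewAt hnew
  obtain ⟨a', ha'p, ha', h', hsys⟩ := h.exists_update_of_systemNewAt h.p_mem_set hnew
  have hpN : p ∣ twistLevel L ψ := (h.dvd_twistLevel_iff hp).2 hpL
  obtain ⟨χ, hχT, hχU⟩ := h'.exists_level_hom (S.erase p) (Finset.erase_subset p S)
    (fun r hr hrD => Finset.mem_erase.2
      ⟨fun hrp => hpD (hrp ▸ hrD), h.level_mem_set r hr (hrD.trans h.dvd)⟩) hsys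
  obtain ⟨M, hMne, g, hg, j, c, hMN, hj, hgc, hcχ, hgq⟩ :=
    Strict.exists_newform_of_hom S (Finset.erase_subset p S) h.level_mem_set' χ
  have hMS : ∀ r : ℕ, r.Prime → r ∣ M → r ∈ S := fun r hr hrM =>
    h.level_mem_set' r hr (hrM.trans hMN)
  have hca : ∀ ℓ : ℕ, ℓ.Prime → ℓ ∉ S → (c ℓ : O) = a ℓ := by
    intro ℓ hℓ hℓS
    have hℓN : ¬ ℓ ∣ twistLevel L ψ := fun hd => hℓS (h.level_mem_set' ℓ hℓ hd)
    have hℓS' : ℓ ∉ (↑(S.erase p) : Set ℕ) := fun hm =>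
      hℓS (Finset.mem_of_mem_erase (Finset.mem_coe.1 hm))
    rw [hcχ ℓ hℓ hℓN hℓS' hℓS, hχT ℓ hℓ hℓN hℓS', ha' ℓ fun he => hℓS (he ▸ h.p_mem_set)]
  have habs := h.residual_absIrr hρ
  refine Strict.isStrictOrdinaryAt_of_sq ρ h.p_mem (h.detIsCyclotomic_of_hasFrobPoly hρ)
    (h.isOrdinaryAt_aux hρ hres) fun P hP b hI σ hσ z hz hu => ?_
  by_cases hpM : p ∣ M
  · refine Strict.sq_eq_one_of_dvd h.p_ne_two h.p_mem hpM
      (fun hd => h.sq_p_not_dvd_twistLevel (hd.trans hMN)) hg h.p_mem_set hMS hj c hgc ρ habs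
      (fun ℓ hℓ hℓS A hA τ hτ => ?_) hP b hI hσ hz
    simp only []
    rw [hρ ℓ hℓ hℓS A hA τ hτ, hca ℓ hℓ hℓS]
  · have hpS' : p ∉ (↑(S.erase p) : Set ℕ) := by simp
    have hU : χ (CuspForm.heckeAlgebra.U hp hpN hpS') ^ 2 = 1 := by
      rw [hχU p hp hpN hpS', ha'p]
    set ε := χ.rangeRestrict (CuspForm.heckeAlgebra.U hp hpN hpS') with hεdef
    have hMS' : ∀ r : ℕ, r.Prime → r ∣ M → r ∈ S.erase p := fun r hr hrM =>
      Finset.mem_erase.2 ⟨fun he => hpM (he ▸ hrM), hMS r hr hrM⟩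
    let c' : ℕ → χ.range := Function.update c p (ε * ((p : χ.range) + 1))
    obtain ⟨iota, hiota⟩ := Strict.exists_iota_of_embedded hg hMS' hj c' fun ℓ hℓ hℓS => by
      rcases eq_or_ne ℓ p with rfl | hℓp
      · simp only [c', Function.update_self]
        exact hgq ℓ hp hpN hpS' h.sq_p_not_dvd_twistLevel hpM hU
      · simp only [c', Function.update_of_ne hℓp]
        exact hgc ℓ hℓ fun hm => hℓS (Finset.mem_erase.2 ⟨hℓp, hm⟩)
    refine Strict.sq_eq_one_of_good hpM h.p_mem_set hMS h.p_mem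
      (iota.comp (Eigen.eigenChar g hg.1 (↑(S.erase p) : Set ℕ)).rangeRestrict) (ε : O)
      (by rw [← Subring.coe_one χ.range, ← Subring.coe_pow]; exact congrArg _ (Subtype.ext hU))
      ?_ ρ habs (fun ℓ hℓ hℓN hℓS' hℓS A hA τ hτ => ?_) (hgood M hpM) hP b hI hσ hz hu
    · rw [RingHom.comp_apply, hiota]
      simp [c', Function.update_self]
    · rw [hρ ℓ hℓ hℓS A hA τ hτ, RingHom.comp_apply, hiota]
      simp only [c', Function.update_of_ne (fun he : ℓ = p => hℓS (he ▸ h.p_mem_set))]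
      rw [hca ℓ hℓ hℓS]

/-- (p1): flat or strict ordinary. -/
theorem TwistedPoint.isFlatAt_or_isStrictOrdinaryAt_aux (h : TwistedPoint p ρbar L D ψ S a)
    {ρ : GaloisRepAdic O} (hρ : HasFrobPoly ρ S a)
    (hres : (GaloisRepAdic.ofResidualGaloisRep ρbar).IsOrdinaryAt p) :
    ρ.IsFlatAt p ∨ ρ.IsStrictOrdinaryAt p := by
  classical
  obtain ⟨χ, hχT, -⟩ := h.exists_level_hom S (Finset.Subset.refl S)
    (fun r hr hrD => h.level_mem_set r hr (hrD.trans h.dvd)) h.hasSystem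
  obtain ⟨M, hMne, g, hg, j, c, hMN, hj, hgc, hcχ, -⟩ :=
    Strict.exists_newform_of_hom S (Finset.Subset.refl S) h.level_mem_set' χ
  have hMS : ∀ r : ℕ, r.Prime → r ∣ M → r ∈ S := fun r hr hrM =>
    h.level_mem_set' r hr (hrM.trans hMN)
  have hca : ∀ ℓ : ℕ, ℓ.Prime → ℓ ∉ S → (c ℓ : O) = a ℓ := by
    intro ℓ hℓ hℓS
    have hℓN : ¬ ℓ ∣ twistLevel L ψ := fun hd => hℓS (h.level_mem_set' ℓ hℓ hd)
    have hℓS' : ℓ ∉ (↑S : Set ℕ) := by simpa using hℓS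
    rw [hcχ ℓ hℓ hℓN hℓS' hℓS, hχT ℓ hℓ hℓN hℓS']
  by_cases hpM : p ∣ M
  · right
    refine Strict.isStrictOrdinaryAt_of_sq ρ h.p_mem (h.detIsCyclotomic_of_hasFrobPoly hρ)
      (h.isOrdinaryAt_aux hρ hres) fun P hP b hI σ hσ z hz _ =>
      Strict.sq_eq_one_of_dvd h.p_ne_two h.p_mem hpM
        (fun hd => h.sq_p_not_dvd_twistLevel (hd.trans hMN)) hg h.p_mem_set hMS hj c hgc ρ
        (h.residual_absIrr hρ) (fun ℓ hℓ hℓS A hA τ hτ => ?_) hP b hI hσ hz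
    simp only []
    rw [hρ ℓ hℓ hℓS A hA τ hτ, hca ℓ hℓ hℓS]
  · left
    obtain ⟨iota, hiota⟩ := Strict.exists_iota_of_embedded hg hMS hj c hgc
    obtain ⟨F⟩ := nonempty_torsionFrame M p
    obtain ⟨θ, T, _, _, _, _, _, _, _, _, H, φ, hφ, hsurj, ⟨e⟩, -, -⟩ :=
      exists_datum_of_hom h.p_mem_set h.p_ne_two h.p_mem hMS ρbar h.absIrr h.odd
        (iota.comp (Eigen.eigenChar g hg.1 (↑S : Set ℕ)).rangeRestrict) a
        (fun ℓ hℓ hℓM hℓS => by
          rw [RingHom.comp_apply, hiota, hca ℓ hℓ (by simpa using hℓS)])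
        (fun ℓ hℓ hℓS A hA σ hσ => ⟨h.residue_trace ℓ hℓ hℓS A hA σ hσ,
          h.residue_det ℓ hℓ hℓS A hA σ hσ⟩) hρ
    exact ETransfer.isFlatAt_of_equiv e (ETransfer.isFlatAt_baseChangeAlong _ hφ _ hsurj
      (FlatDatum.isFlatAt_of_models (torsionFacts _ p) F (hasTorsionModels _ p hpM) h.p_mem_set
        h.p_mem hMS H))

end Fermat.Agent.Lifting
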